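import Mathlib
import Fermat.Prelude.Def_CuspForm_IntegralLattice
import Fermat.Prelude.Def_FormalHecke_Eigensystem
import Fermat.Prelude.Def_ModularForm_EisensteinChiNegThree
import Fermat.Prelude.Def_FLTPrelim_Modularity
import Fermat.Prelude.Def_CuspForm_HeckeLocal
import Fermat.Prelude.Thm_ModularFormClass_qCoeff_heckeT
import Fermat.Prelude.Thm_ModularFormClass_qCoeff_heckeU
import Fermat.Prelude.Thm_CongruenceSubgroup_one_mem_strictPeriods_Gamma0

set_option autoImplicit false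

open CuspForm CongruenceSubgroup ModularFormClass

namespace Fermat.Agent.S49.ModThree

theorem hasIntegralStructure_of_hasIntegralBasis {N : ℕ} (h : CuspForm.HasIntegralBasis N) :
    CuspForm.HasIntegralStructure N 2 := by
  unfold CuspForm.HasIntegralStructure
  rw [eq_top_iff, ← h]
  apply Submodule.span_mono
  intro f hf
  apply Submodule.subset_span
  intro n
  obtain ⟨m, hm⟩ := Subring.mem_bot.mp (hf n)
  exact ⟨m, hm.symm⟩

theorem moduleFinite_heckeAlgebra {N : ℕ} [NeZero N] (S : Set ℕ)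
    (hint : CuspForm.HasIntegralStructure N 2) :
    Module.Finite ℤ (CuspForm.heckeAlgebra N 2 S) := by
  have e := AlgEquiv.ofBijective (latticeRestrictHom N S) (latticeRestrictHom_bijective N S hint)
  exact Module.Finite.equiv e.symm.toLinearEquiv

section qCoeffLinear

variable {N : ℕ} {k : ℤ}

theorem qCoeff_add' (f g : CuspForm (Gamma0 N) k) (n : ℕ) :
    qCoeff (⇑(f + g)) n = qCoeff (⇑f) n + qCoeff (⇑g) n := by
  unfold qCoeff
  rw [FunLike.coe_add, ModularForm.qExpansion_add one_pos (one_mem_strictPeriods_Gamma0 N) f g,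
    map_add]

theorem qCoeff_sub' (f g : CuspForm (Gamma0 N) k) (n : ℕ) :
    qCoeff (⇑(f - g)) n = qCoeff (⇑f) n - qCoeff (⇑g) n := by
  unfold qCoeff
  rw [FunLike.coe_sub, ModularForm.qExpansion_sub one_pos (one_mem_strictPeriods_Gamma0 N) f g,
    map_sub]

theorem qCoeff_smul' (c : ℂ) (f : CuspForm (Gamma0 N) k) (n : ℕ) :
    qCoeff (⇑(c • f)) n = c * qCoeff (⇑f) n := by
  unfold qCoeff
  rw [FunLike.coe_smul,
    ModularForm.qExpansion_smul one_pos (one_mem_strictPeriods_Gamma0 N) c f,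
    PowerSeries.coeff_smul, smul_eq_mul]

end qCoeffLinear


section Core

variable {N : ℕ}

def IsInt (g : CuspForm (Gamma0 N) 2) : Prop :=
  ∀ n : ℕ, ∃ m : ℤ, qCoeff (⇑g) n = (m : ℂ)

theorem isInt_zero : IsInt (0 : CuspForm (Gamma0 N) 2) := by
  intro n
  refine ⟨0, ?_⟩
  unfold qCoeff
  rw [FunLike.coe_zero, UpperHalfPlane.qExpansion_zero]
  simp

theorem IsInt.add {f g : CuspForm (Gamma0 N) 2} (hf : IsInt f) (hg : IsInt g) :
    IsInt (f + g) := by
  intro n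
  obtain ⟨a, ha⟩ := hf n
  obtain ⟨b, hb⟩ := hg n
  exact ⟨a + b, by rw [qCoeff_add', ha, hb]; push_cast; rfl⟩

theorem IsInt.intCast_smul {f : CuspForm (Gamma0 N) 2} (hf : IsInt f) (c : ℤ) :
    IsInt ((c : ℂ) • f) := by
  intro n
  obtain ⟨a, ha⟩ := hf n
  exact ⟨c * a, by rw [qCoeff_smul', ha]; push_cast; rfl⟩

theorem mem_intLattice_iff (g : CuspForm (Gamma0 N) 2) :
    g ∈ CuspForm.intLattice N 2 ↔ IsInt g := by
  constructor
  · intro hg
    unfold CuspForm.intLattice at hg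
    induction hg using Submodule.span_induction with
    | mem x hx => exact hx
    | zero => exact isInt_zero
    | add x y _ _ hx hy => exact hx.add hy
    | smul c x _ hx =>
      rw [← Int.cast_smul_eq_zsmul ℂ c x]
      exact hx.intCast_smul c
  · intro hg
    exact Submodule.subset_span hg

variable [NeZero N] {S : Set ℕ}

theorem IsInt.hecke {t : Module.End ℂ (CuspForm (Gamma0 N) 2)}
    (ht : t ∈ CuspForm.heckeAlgebra N 2 S) {g : CuspForm (Gamma0 N) 2} (hg : IsInt g) :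
    IsInt (t g) :=
  (mem_intLattice_iff _).mp
    (CuspForm.mem_intLattice_of_mem_heckeAlgebra one_le_two ht ((mem_intLattice_iff _).mpr hg))

def modThreeIdeal (S : Set ℕ) (f0 : CuspForm (Gamma0 N) 2) :
    Ideal (CuspForm.heckeAlgebra N 2 S) where
  carrier := {t | ∃ g : CuspForm (Gamma0 N) 2, IsInt g ∧
    (t : Module.End ℂ (CuspForm (Gamma0 N) 2)) f0 = (3 : ℂ) • g}
  zero_mem' := ⟨0, isInt_zero, by simp⟩
  add_mem' := by
    rintro t t' ⟨g, hg, h⟩ ⟨g', hg', h'⟩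
    refine ⟨g + g', hg.add hg', ?_⟩
    rw [Subalgebra.coe_add, LinearMap.add_apply, h, h', smul_add]
  smul_mem' := by
    rintro c t ⟨g, hg, h⟩
    refine ⟨(c : Module.End ℂ (CuspForm (Gamma0 N) 2)) g, hg.hecke c.2, ?_⟩
    rw [smul_eq_mul, Subalgebra.coe_mul, Module.End.mul_apply, h, map_smul]

theorem mem_modThreeIdeal_iff {f0 : CuspForm (Gamma0 N) 2} (t : CuspForm.heckeAlgebra N 2 S) :
    t ∈ modThreeIdeal S f0 ↔ ∃ g : CuspForm (Gamma0 N) 2, IsInt g ∧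
      (t : Module.End ℂ (CuspForm (Gamma0 N) 2)) f0 = (3 : ℂ) • g :=
  Iff.rfl

end Core


section Generators

open EisensteinWeightOne

variable {N : ℕ} [NeZero N] {S : Set ℕ}

theorem natCast_modEq_chiNegThree (ℓ : ℕ) : (ℓ : ℤ) ≡ chiNegThree ℓ [ZMOD 3] := by
  unfold chiNegThree Int.ModEq
  split_ifs <;> omega

/-- If all `q`-coefficients of `h` are integers divisible by `3`, then `h = 3 • g` with `g`
integral. -/
theorem exists_isInt_eq_three_smul {h : CuspForm (Gamma0 N) 2}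
    (hh : ∀ n : ℕ, ∃ m : ℤ, qCoeff (⇑h) n = ((3 * m : ℤ) : ℂ)) :
    ∃ g : CuspForm (Gamma0 N) 2, IsInt g ∧ h = (3 : ℂ) • g := by
  refine ⟨(3 : ℂ)⁻¹ • h, ?_, ?_⟩
  · intro n
    obtain ⟨m, hm⟩ := hh n
    refine ⟨m, ?_⟩
    rw [qCoeff_smul', hm]
    push_cast
    field_simp
  · rw [smul_smul, mul_inv_cancel₀ (by norm_num : (3 : ℂ) ≠ 0), one_smul]

variable {a af : ℕ → ℤ} {f0 : CuspForm (Gamma0 N) 2}

theorem heckeT_sub_mem_modThreeIdeal
    (hf0 : ∀ n, qCoeff (⇑f0) n = (af n : ℂ)) (hcong : ∀ n, (3 : ℤ) ∣ af n - a n)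
    (heig : FormalHecke.IsEigensystem
      (fun ℓ => if ℓ ∣ N then 0 else ((chiNegThree ℓ : ℤ) : ℤ)) a)
    {ℓ : ℕ} (hℓ : ℓ.Prime) (hℓN : ¬ ℓ ∣ N) (hℓS : ℓ ∉ S) :
    (CuspForm.heckeAlgebra.T hℓ hℓN hℓS : CuspForm.heckeAlgebra N 2 S) -
      algebraMap ℤ (CuspForm.heckeAlgebra N 2 S) (a ℓ) ∈ modThreeIdeal S f0 := by
  rw [mem_modThreeIdeal_iff]
  have key : ∀ n : ℕ, ∃ m : ℤ,
      qCoeff (⇑(CuspForm.heckeTLin 2 hℓ hℓN f0 - ((a ℓ : ℤ) : ℂ) • f0)) n = ((3 * m : ℤ) : ℂ) := by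
    intro n
    have hmod : ∀ x, af x ≡ a x [ZMOD 3] := fun x => (Int.modEq_iff_dvd.mpr (hcong x)).symm
    have hE := heig.2 ℓ hℓ n
    simp only [if_neg hℓN] at hE
    have h3 : (3 : ℤ) ∣ af (n * ℓ) + (if ℓ ∣ n then (ℓ : ℤ) * af (n / ℓ) else 0) - a ℓ * af n := by
      apply Int.ModEq.dvd
      rw [mul_comm n ℓ]
      have h1 : a ℓ * af n ≡ a ℓ * a n [ZMOD 3] := (hmod n).mul_left _
      have h2 : af (ℓ * n) + (if ℓ ∣ n then (ℓ : ℤ) * af (n / ℓ) else 0) ≡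
          a (ℓ * n) + chiNegThree ℓ * (if ℓ ∣ n then a (n / ℓ) else 0) [ZMOD 3] := by
        apply Int.ModEq.add (hmod _)
        split_ifs
        · exact (natCast_modEq_chiNegThree ℓ).mul (hmod _)
        · simp
      rw [hE] at h2
      exact h1.trans h2.symm
    obtain ⟨m, hm⟩ := h3
    refine ⟨m, ?_⟩
    rw [qCoeff_sub', qCoeff_smul', CuspForm.coe_heckeTLin_apply,
      ModularFormClass.qCoeff_heckeT f0 (one_mem_strictPeriods_Gamma0 N) hℓ.ne_zero,
      ModularForm.coeffHeckeT_apply, ← hm]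
    simp only [hf0]
    split_ifs
    · push_cast; simp
    · push_cast; simp
  obtain ⟨g, hg, hgh⟩ := exists_isInt_eq_three_smul key
  refine ⟨g, hg, ?_⟩
  rw [← hgh, Subalgebra.coe_sub, CuspForm.heckeAlgebra.coe_T, Subalgebra.coe_algebraMap,
    LinearMap.sub_apply, Algebra.algebraMap_eq_smul_one, LinearMap.smul_apply,
    Module.End.one_apply, Int.cast_smul_eq_zsmul]

theorem heckeU_sub_mem_modThreeIdeal
    (hf0 : ∀ n, qCoeff (⇑f0) n = (af n : ℂ)) (hcong : ∀ n, (3 : ℤ) ∣ af n - a n)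
    (heig : FormalHecke.IsEigensystem
      (fun ℓ => if ℓ ∣ N then 0 else ((chiNegThree ℓ : ℤ) : ℤ)) a)
    {q : ℕ} (hq : q.Prime) (hqN : q ∣ N) (hqS : q ∉ S) :
    (CuspForm.heckeAlgebra.U hq hqN hqS : CuspForm.heckeAlgebra N 2 S) -
      algebraMap ℤ (CuspForm.heckeAlgebra N 2 S) (a q) ∈ modThreeIdeal S f0 := by
  rw [mem_modThreeIdeal_iff]
  have key : ∀ n : ℕ, ∃ m : ℤ,
      qCoeff (⇑(CuspForm.heckeULin 2 hqN f0 - ((a q : ℤ) : ℂ) • f0)) n = ((3 * m : ℤ) : ℂ) := by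
    intro n
    have hmod : ∀ x, af x ≡ a x [ZMOD 3] := fun x => (Int.modEq_iff_dvd.mpr (hcong x)).symm
    have hE := heig.2 q hq n
    simp only [if_pos hqN, zero_mul, add_zero] at hE
    have h3 : (3 : ℤ) ∣ af (n * q) - a q * af n := by
      apply Int.ModEq.dvd
      rw [mul_comm n q]
      have h1 : a q * af n ≡ a q * a n [ZMOD 3] := (hmod n).mul_left _
      have h2 : af (q * n) ≡ a (q * n) [ZMOD 3] := hmod _
      rw [hE] at h2
      exact h1.trans h2.symm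
    obtain ⟨m, hm⟩ := h3
    refine ⟨m, ?_⟩
    rw [qCoeff_sub', qCoeff_smul', CuspForm.coe_heckeULin_apply,
      ModularFormClass.qCoeff_heckeU f0 (one_mem_strictPeriods_Gamma0 N) hq.ne_zero,
      ModularForm.coeffHeckeU_apply, ← hm]
    simp only [hf0]
    push_cast
    ring
  obtain ⟨g, hg, hgh⟩ := exists_isInt_eq_three_smul key
  refine ⟨g, hg, ?_⟩
  rw [← hgh, Subalgebra.coe_sub, CuspForm.heckeAlgebra.coe_U, Subalgebra.coe_algebraMap,
    LinearMap.sub_apply, Algebra.algebraMap_eq_smul_one, LinearMap.smul_apply,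
    Module.End.one_apply, Int.cast_smul_eq_zsmul]

/-- Every Hecke operator is congruent to an integer modulo `modThreeIdeal`. -/
theorem exists_int_sub_mem_modThreeIdeal
    (hf0 : ∀ n, qCoeff (⇑f0) n = (af n : ℂ)) (hcong : ∀ n, (3 : ℤ) ∣ af n - a n)
    (heig : FormalHecke.IsEigensystem
      (fun ℓ => if ℓ ∣ N then 0 else ((chiNegThree ℓ : ℤ) : ℤ)) a)
    (t : CuspForm.heckeAlgebra N 2 S) :
    ∃ c : ℤ, t - algebraMap ℤ (CuspForm.heckeAlgebra N 2 S) c ∈ modThreeIdeal S f0 := by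
  obtain ⟨x, hx⟩ := t
  have main : ∀ (x : Module.End ℂ (CuspForm (Gamma0 N) 2))
      (hx : x ∈ Algebra.adjoin ℤ (CuspForm.heckeGenerators N 2 S)),
      ∃ c : ℤ, (⟨x, hx⟩ : CuspForm.heckeAlgebra N 2 S) -
        algebraMap ℤ (CuspForm.heckeAlgebra N 2 S) c ∈ modThreeIdeal S f0 := by
    intro x hx
    induction hx using Algebra.adjoin_induction with
    | mem y hy =>
      rcases hy with ⟨ℓ, hℓ, hℓN, hℓS, rfl⟩ | ⟨q, hqN, hq, hqS, rfl⟩
      · exact ⟨a ℓ, heckeT_sub_mem_modThreeIdeal hf0 hcong heig hℓ hℓN hℓS⟩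
      · exact ⟨a q, heckeU_sub_mem_modThreeIdeal hf0 hcong heig hq hqN hqS⟩
    | algebraMap r =>
      refine ⟨r, ?_⟩
      have : (⟨algebraMap ℤ _ r, Subalgebra.algebraMap_mem _ r⟩ : CuspForm.heckeAlgebra N 2 S) =
          algebraMap ℤ (CuspForm.heckeAlgebra N 2 S) r := rfl
      rw [this, sub_self]
      exact zero_mem _
    | add y z hy hz ihy ihz =>
      obtain ⟨c, hc⟩ := ihy
      obtain ⟨d, hd⟩ := ihz
      refine ⟨c + d, ?_⟩
      have : (⟨y + z, add_mem hy hz⟩ : CuspForm.heckeAlgebra N 2 S) -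
          algebraMap ℤ (CuspForm.heckeAlgebra N 2 S) (c + d) =
          ((⟨y, hy⟩ : CuspForm.heckeAlgebra N 2 S) - algebraMap ℤ _ c) +
          ((⟨z, hz⟩ : CuspForm.heckeAlgebra N 2 S) - algebraMap ℤ _ d) := by
        rw [map_add]
        apply Subtype.ext
        simp only [Subalgebra.coe_sub, Subalgebra.coe_add]
        abel
      rw [this]
      exact add_mem hc hd
    | mul y z hy hz ihy ihz =>
      obtain ⟨c, hc⟩ := ihy
      obtain ⟨d, hd⟩ := ihz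
      refine ⟨c * d, ?_⟩
      have : (⟨y * z, mul_mem hy hz⟩ : CuspForm.heckeAlgebra N 2 S) -
          algebraMap ℤ (CuspForm.heckeAlgebra N 2 S) (c * d) =
          (⟨y, hy⟩ : CuspForm.heckeAlgebra N 2 S) *
            ((⟨z, hz⟩ : CuspForm.heckeAlgebra N 2 S) - algebraMap ℤ _ d) +
          algebraMap ℤ _ d * ((⟨y, hy⟩ : CuspForm.heckeAlgebra N 2 S) - algebraMap ℤ _ c) := by
        rw [map_mul]
        have hyz : (⟨y * z, mul_mem hy hz⟩ : CuspForm.heckeAlgebra N 2 S) =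
            (⟨y, hy⟩ : CuspForm.heckeAlgebra N 2 S) * ⟨z, hz⟩ := rfl
        rw [hyz]
        ring
      rw [this]
      exact add_mem (Ideal.mul_mem_left _ _ hd) (Ideal.mul_mem_left _ _ hc)
  exact main x hx

theorem intCast_mem_modThreeIdeal_of_dvd (hf0 : ∀ n, qCoeff (⇑f0) n = (af n : ℂ))
    {c : ℤ} (hc : (3 : ℤ) ∣ c) :
    algebraMap ℤ (CuspForm.heckeAlgebra N 2 S) c ∈ modThreeIdeal S f0 := by
  obtain ⟨d, rfl⟩ := hc
  rw [mem_modThreeIdeal_iff]
  refine ⟨(d : ℂ) • f0, IsInt.intCast_smul (fun n => ⟨af n, hf0 n⟩) d, ?_⟩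
  rw [Subalgebra.coe_algebraMap, Algebra.algebraMap_eq_smul_one, LinearMap.smul_apply,
    Module.End.one_apply, ← Int.cast_smul_eq_zsmul ℂ, smul_smul]
  push_cast
  rfl

theorem three_mem_modThreeIdeal (hf0 : ∀ n, qCoeff (⇑f0) n = (af n : ℂ)) :
    (3 : CuspForm.heckeAlgebra N 2 S) ∈ modThreeIdeal S f0 := by
  have h := intCast_mem_modThreeIdeal_of_dvd (S := S) hf0 (dvd_refl (3 : ℤ))
  simpa using h

theorem intCast_mem_modThreeIdeal_iff (hf0 : ∀ n, qCoeff (⇑f0) n = (af n : ℂ))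
    (hcong : ∀ n, (3 : ℤ) ∣ af n - a n) (ha1 : a 1 = 1) (c : ℤ) :
    algebraMap ℤ (CuspForm.heckeAlgebra N 2 S) c ∈ modThreeIdeal S f0 ↔ (3 : ℤ) ∣ c := by
  refine ⟨fun h => ?_, intCast_mem_modThreeIdeal_of_dvd hf0⟩
  rw [mem_modThreeIdeal_iff] at h
  obtain ⟨g, hg, hgh⟩ := h
  rw [Subalgebra.coe_algebraMap, Algebra.algebraMap_eq_smul_one, LinearMap.smul_apply,
    Module.End.one_apply, ← Int.cast_smul_eq_zsmul ℂ] at hgh
  obtain ⟨m, hm⟩ := hg 1
  have h1 := congrArg (fun f : CuspForm (Gamma0 N) 2 => qCoeff (⇑f) 1) hgh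
  simp only [qCoeff_smul', hf0, hm] at h1
  have h2 : c * af 1 = 3 * m := by exact_mod_cast h1
  have h3 : (3 : ℤ) ∣ c * af 1 := ⟨m, h2⟩
  have h4 : (3 : ℤ) ∣ af 1 - 1 := by simpa [ha1] using hcong 1
  have h5 : (3 : ℤ) ∣ c * (af 1 - 1) := Dvd.dvd.mul_left h4 c
  have h6 : c = c * af 1 - c * (af 1 - 1) := by ring
  rw [h6]
  exact dvd_sub h3 h5

theorem modThreeIdeal_isMaximal
    (hf0 : ∀ n, qCoeff (⇑f0) n = (af n : ℂ)) (hcong : ∀ n, (3 : ℤ) ∣ af n - a n)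
    (heig : FormalHecke.IsEigensystem
      (fun ℓ => if ℓ ∣ N then 0 else ((chiNegThree ℓ : ℤ) : ℤ)) a) :
    (modThreeIdeal S f0).IsMaximal := by
  rw [Ideal.isMaximal_iff]
  refine ⟨fun h1 => ?_, fun J x hJ hx hxJ => ?_⟩
  · have h := (intCast_mem_modThreeIdeal_iff (S := S) hf0 hcong heig.1 1).mp (by simpa using h1)
    norm_num at h
  · obtain ⟨c, hc⟩ := exists_int_sub_mem_modThreeIdeal hf0 hcong heig x
    have hcJ : algebraMap ℤ (CuspForm.heckeAlgebra N 2 S) c ∈ J := by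
      have : algebraMap ℤ (CuspForm.heckeAlgebra N 2 S) c =
          x - (x - algebraMap ℤ (CuspForm.heckeAlgebra N 2 S) c) := by ring
      rw [this]
      exact sub_mem hxJ (hJ hc)
    have h3c : ¬ (3 : ℤ) ∣ c := by
      intro h
      apply hx
      have : x = (x - algebraMap ℤ (CuspForm.heckeAlgebra N 2 S) c) +
          algebraMap ℤ (CuspForm.heckeAlgebra N 2 S) c := by ring
      rw [this]
      exact add_mem hc (intCast_mem_modThreeIdeal_of_dvd hf0 h)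
    have hcop : IsCoprime c 3 := by
      have hp : Prime (3 : ℤ) := Int.prime_three
      exact (hp.coprime_iff_not_dvd.mpr h3c).symm
    obtain ⟨u, v, huv⟩ := hcop
    have h3J : algebraMap ℤ (CuspForm.heckeAlgebra N 2 S) 3 ∈ J :=
      hJ (intCast_mem_modThreeIdeal_of_dvd hf0 (dvd_refl 3))
    have : (1 : CuspForm.heckeAlgebra N 2 S) =
        algebraMap ℤ _ u * algebraMap ℤ _ c + algebraMap ℤ _ v * algebraMap ℤ _ 3 := by
      rw [← map_mul, ← map_mul, ← map_add, huv, map_one]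
    rw [this]
    exact add_mem (Ideal.mul_mem_left _ _ hcJ) (Ideal.mul_mem_left _ _ h3J)

end Generators

end Fermat.Agent.S49.ModThree
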