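import Mathlib
import Fermat.Prelude.Def_FormalHecke_Eigensystem

set_option autoImplicit false

namespace Fermat.Agent.S49.Recursive

open FormalHecke

variable {R : Type*} [CommRing R]

theorem eigensystem_prime_pow_succ_succ {e a : ℕ → R} (h : IsEigensystem e a)
    {ℓ : ℕ} (hℓ : ℓ.Prime) (r : ℕ) :
    a (ℓ ^ (r + 2)) = a ℓ * a (ℓ ^ (r + 1)) - e ℓ * a (ℓ ^ r) := by
  have h1 := h.2 ℓ hℓ (ℓ ^ (r + 1))
  have hd : ℓ ∣ ℓ ^ (r + 1) := dvd_pow_self ℓ (Nat.succ_ne_zero r)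
  have hq : ℓ ^ (r + 1) / ℓ = ℓ ^ r := by
    rw [pow_succ, Nat.mul_div_cancel _ hℓ.pos]
  rw [if_pos hd, hq] at h1
  have h2 : ℓ * ℓ ^ (r + 1) = ℓ ^ (r + 2) := by ring
  rw [h2] at h1
  linear_combination h1

theorem eigensystem_prime_pow_mul {e a : ℕ → R} (h : IsEigensystem e a)
    {ℓ : ℕ} (hℓ : ℓ.Prime) :
    ∀ (k n : ℕ), ¬ ℓ ∣ n → a (ℓ ^ k * n) = a (ℓ ^ k) * a n := by
  intro k
  induction k using Nat.twoStepInduction with
  | zero =>
    intro n _
    simp [h.1]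
  | one =>
    intro n hn
    have h1 := h.2 ℓ hℓ n
    rw [if_neg hn] at h1
    simpa using h1
  | more k ih0 ih1 =>
    intro n hn
    have h1 := h.2 ℓ hℓ (ℓ ^ (k + 1) * n)
    have hd : ℓ ∣ ℓ ^ (k + 1) * n := Dvd.dvd.mul_right (dvd_pow_self ℓ (Nat.succ_ne_zero k)) n
    have hq : ℓ ^ (k + 1) * n / ℓ = ℓ ^ k * n := by
      rw [pow_succ, mul_assoc, mul_comm ℓ n, ← mul_assoc, Nat.mul_div_cancel _ hℓ.pos]
    rw [if_pos hd, hq, ih0 n hn, ih1 n hn] at h1
    have h2 : ℓ * (ℓ ^ (k + 1) * n) = ℓ ^ (k + 2) * n := by ring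
    rw [h2] at h1
    rw [eigensystem_prime_pow_succ_succ h hℓ k]
    linear_combination h1

theorem eigensystem_mul_of_coprime {e a : ℕ → R} (h : IsEigensystem e a) :
    ∀ m n : ℕ, m.Coprime n → a (m * n) = a m * a n := by
  intro m
  induction m using Nat.strong_induction_on with
  | _ m ih =>
    intro n hmn
    rcases Nat.eq_zero_or_pos m with rfl | hmpos
    · have : n = 1 := by simpa using hmn
      subst this
      simp [h.1]
    rcases eq_or_ne m 1 with rfl | hm1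
    · simp [h.1]
    have hℓ : (m.minFac).Prime := Nat.minFac_prime hm1
    obtain ⟨k, m', hm', hmeq⟩ :=
      Nat.exists_eq_pow_mul_and_not_dvd hmpos.ne' m.minFac hℓ.ne_one
    set ℓ := m.minFac with hℓdef
    have hℓm : ℓ ∣ m := Nat.minFac_dvd m
    have hk : k ≠ 0 := by
      rintro rfl
      rw [pow_zero, one_mul] at hmeq
      exact hm' (hmeq ▸ hℓm)
    have hm'pos : 0 < m' := by
      rcases Nat.eq_zero_or_pos m' with rfl | h0
      · exact absurd (dvd_zero ℓ) hm'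
      · exact h0
    have hm'lt : m' < m := by
      rw [hmeq]
      have : 1 < ℓ ^ k := Nat.one_lt_pow hk hℓ.one_lt
      nlinarith
    have hm'dvd : m' ∣ m := hmeq ▸ Dvd.intro_left _ rfl
    have hcop' : m'.Coprime n := Nat.Coprime.coprime_dvd_left hm'dvd hmn
    have hℓn : ¬ ℓ ∣ n := by
      intro hdn
      have := Nat.dvd_gcd hℓm hdn
      rw [hmn.gcd_eq_one] at this
      exact hℓ.one_lt.ne' (Nat.dvd_one.mp this)
    have hℓm'n : ¬ ℓ ∣ m' * n := by
      intro hd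
      rcases (Nat.Prime.dvd_mul hℓ).mp hd with h1 | h1
      · exact hm' h1
      · exact hℓn h1
    calc a (m * n) = a (ℓ ^ k * (m' * n)) := by rw [hmeq, mul_assoc]
      _ = a (ℓ ^ k) * a (m' * n) := eigensystem_prime_pow_mul h hℓ k _ hℓm'n
      _ = a (ℓ ^ k) * (a m' * a n) := by rw [ih m' hm'lt n hcop']
      _ = a (ℓ ^ k * m') * a n := by
          rw [eigensystem_prime_pow_mul h hℓ k _ hm', mul_assoc]
      _ = a m * a n := by rw [← hmeq]

theorem isRecursive_of_isEigensystem {e a : ℕ → R} (h : IsEigensystem e a) :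
    IsRecursive e a :=
  ⟨h.1, eigensystem_mul_of_coprime h, fun _ r hℓ => eigensystem_prime_pow_succ_succ h hℓ r⟩

end Fermat.Agent.S49.Recursive
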