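import Mathlib
import Fermat.Prelude.Def_FLTPrelim_Modularity
import Fermat.Prelude.Def_ModularForm_HeckeOperatorForms
import Fermat.Prelude.Thm_ModularFormClass_qCoeff_heckeT
import Fermat.Prelude.Thm_ModularFormClass_qCoeff_heckeU
import Fermat.Prelude.Def_FormalHecke_Eigensystem
import Fermat.Agent.S49.Recursive

set_option autoImplicit false

namespace Fermat.Agent.S49.Normalize

open Fermat.Agent.S49.Recursive

open CongruenceSubgroup ModularFormClass UpperHalfPlane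
open scoped MatrixGroups

variable {N : ℕ}

theorem one_mem_strictPeriods_Gamma0 (N : ℕ) :
    (1 : ℝ) ∈ (Gamma0 N : Subgroup (GL (Fin 2) ℝ)).strictPeriods := by
  simp [CongruenceSubgroup.strictPeriods_Gamma0]

theorem qCoeff_smul_cuspForm (c : ℂ) (f : CuspForm (Gamma0 N) 2) (n : ℕ) :
    qCoeff (⇑(c • f)) n = c * qCoeff (⇑f) n := by
  have h := ModularForm.qExpansion_smul (h := 1) one_pos (one_mem_strictPeriods_Gamma0 N) c f
  have hcoe : (⇑(c • f) : ℍ → ℂ) = c • (⇑f : ℍ → ℂ) := rfl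
  rw [qCoeff, qCoeff, hcoe, h]
  simp

theorem qCoeff_zero_cuspForm (f : CuspForm (Gamma0 N) 2) : qCoeff (⇑f) 0 = 0 :=
  CuspFormClass.qExpansion_coeff_zero f one_pos (one_mem_strictPeriods_Gamma0 N)

theorem cuspForm_eq_zero_of_qCoeff (f : CuspForm (Gamma0 N) 2)
    (h : ∀ n, qCoeff (⇑f) n = 0) : f = 0 := by
  have hq : qExpansion 1 (⇑f) = 0 := by
    ext n
    simpa [qCoeff] using h n
  have hΓ := one_mem_strictPeriods_Gamma0 N
  have : Fact (IsCusp OnePoint.infty (Gamma0 N : Subgroup (GL (Fin 2) ℝ))) :=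
    ⟨Subgroup.isCusp_of_mem_strictPeriods one_pos hΓ⟩
  have h0 : (⇑f : ℍ → ℂ) = 0 :=
    (qExpansion_eq_zero_iff one_pos (SlashInvariantFormClass.periodic_comp_ofComplex f hΓ) (holo f)
      (bdd_at_infty f)).mp hq
  exact DFunLike.coe_injective h0

theorem qCoeff_heckeTLin (f : CuspForm (Gamma0 N) 2) {ℓ : ℕ} (hℓ : ℓ.Prime) (hℓN : ¬ ℓ ∣ N)
    (n : ℕ) :
    qCoeff (⇑(CuspForm.heckeTLin 2 hℓ hℓN f)) n =
      qCoeff (⇑f) (n * ℓ) + if ℓ ∣ n then (ℓ : ℂ) * qCoeff (⇑f) (n / ℓ) else 0 := by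
  rw [CuspForm.coe_heckeTLin_apply,
    ModularFormClass.qCoeff_heckeT f (one_mem_strictPeriods_Gamma0 N) hℓ.ne_zero n,
    ModularForm.coeffHeckeT_apply]
  norm_num

theorem qCoeff_heckeULin [NeZero N] (f : CuspForm (Gamma0 N) 2) {q : ℕ} (hq : q.Prime)
    (hqN : q ∣ N) (n : ℕ) :
    qCoeff (⇑(CuspForm.heckeULin 2 hqN f)) n = qCoeff (⇑f) (n * q) := by
  rw [CuspForm.coe_heckeULin_apply,
    ModularFormClass.qCoeff_heckeU f (one_mem_strictPeriods_Gamma0 N) hq.ne_zero n,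
    ModularForm.coeffHeckeU_apply]

/-- The level-`N` weight-2 "Euler factor character": `ℓ` for `ℓ ∤ N` and `0` for `ℓ ∣ N`. -/
noncomputable def levelChar (N : ℕ) (ℓ : ℕ) : ℂ := if ℓ ∣ N then 0 else (ℓ : ℂ)

theorem isEigensystem_of_hecke_eigen [NeZero N] (f : CuspForm (Gamma0 N) 2) (lam : ℕ → ℂ)
    (h1 : qCoeff (⇑f) 1 = 1)
    (hT : ∀ (ℓ : ℕ) (hℓ : ℓ.Prime) (hℓN : ¬ ℓ ∣ N), CuspForm.heckeTLin 2 hℓ hℓN f = lam ℓ • f)
    (hU : ∀ (q : ℕ) (_ : q.Prime) (hqN : q ∣ N), CuspForm.heckeULin 2 hqN f = lam q • f) :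
    FormalHecke.IsEigensystem (levelChar N) (fun n => qCoeff (⇑f) n) ∧
      ∀ ℓ : ℕ, ℓ.Prime → qCoeff (⇑f) ℓ = lam ℓ := by
  have hrel : ∀ ℓ : ℕ, ℓ.Prime → ∀ n : ℕ,
      qCoeff (⇑f) (ℓ * n) + levelChar N ℓ * (if ℓ ∣ n then qCoeff (⇑f) (n / ℓ) else 0) =
        lam ℓ * qCoeff (⇑f) n := by
    intro ℓ hℓ n
    by_cases hℓN : ℓ ∣ N
    · have h := qCoeff_heckeULin f hℓ hℓN n
      rw [hU ℓ hℓ hℓN, qCoeff_smul_cuspForm] at h
      rw [levelChar, if_pos hℓN, zero_mul, add_zero, mul_comm ℓ n, h]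
    · have h := qCoeff_heckeTLin f hℓ hℓN n
      rw [hT ℓ hℓ hℓN, qCoeff_smul_cuspForm] at h
      rw [levelChar, if_neg hℓN, mul_comm ℓ n, h]
      split_ifs <;> simp
  have hlam : ∀ ℓ : ℕ, ℓ.Prime → qCoeff (⇑f) ℓ = lam ℓ := by
    intro ℓ hℓ
    have h := hrel ℓ hℓ 1
    have hnd : ¬ ℓ ∣ 1 := fun hd => hℓ.one_lt.ne' (Nat.dvd_one.mp hd)
    rw [if_neg hnd, mul_zero, add_zero, mul_one, h1, mul_one] at h
    exact h
  refine ⟨⟨h1, fun ℓ hℓ n => ?_⟩, hlam⟩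
  have h := hrel ℓ hℓ n
  rw [← hlam ℓ hℓ] at h
  exact h

theorem isNormalizedEigenform_of_isEigensystem (f : CuspForm (Gamma0 N) 2)
    (h : FormalHecke.IsEigensystem (levelChar N) (fun n => qCoeff (⇑f) n)) :
    f.IsNormalizedEigenform := by
  have hrec := isRecursive_of_isEigensystem h
  refine ⟨hrec.1, hrec.2.1, ?_, ?_⟩
  · intro p r hp hpN
    have := hrec.2.2 p r hp
    simpa [levelChar, hpN] using this
  · intro p r hp hpN
    have := hrec.2.2 p r hp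
    simpa [levelChar, hpN] using this

/-- A nonzero simultaneous Hecke eigenvector has nonzero first coefficient. -/
theorem qCoeff_one_ne_zero_of_hecke_eigen [NeZero N] (f : CuspForm (Gamma0 N) 2) (hf : f ≠ 0)
    (lam : ℕ → ℂ)
    (hT : ∀ (ℓ : ℕ) (hℓ : ℓ.Prime) (hℓN : ¬ ℓ ∣ N), CuspForm.heckeTLin 2 hℓ hℓN f = lam ℓ • f)
    (hU : ∀ (q : ℕ) (_ : q.Prime) (hqN : q ∣ N), CuspForm.heckeULin 2 hqN f = lam q • f) :
    qCoeff (⇑f) 1 ≠ 0 := by
  intro h1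
  apply hf
  apply cuspForm_eq_zero_of_qCoeff
  have hrel : ∀ ℓ : ℕ, ℓ.Prime → ∀ n : ℕ,
      qCoeff (⇑f) (ℓ * n) = lam ℓ * qCoeff (⇑f) n -
        levelChar N ℓ * (if ℓ ∣ n then qCoeff (⇑f) (n / ℓ) else 0) := by
    intro ℓ hℓ n
    by_cases hℓN : ℓ ∣ N
    · have h := qCoeff_heckeULin f hℓ hℓN n
      rw [hU ℓ hℓ hℓN, qCoeff_smul_cuspForm] at h
      rw [levelChar, if_pos hℓN, zero_mul, sub_zero, mul_comm ℓ n, h]
    · have h := qCoeff_heckeTLin f hℓ hℓN n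
      rw [hT ℓ hℓ hℓN, qCoeff_smul_cuspForm] at h
      rw [levelChar, if_neg hℓN, mul_comm ℓ n, h]
      split_ifs <;> ring
  intro n
  induction n using Nat.strong_induction_on with
  | _ n ih =>
    rcases Nat.eq_zero_or_pos n with rfl | hnpos
    · exact qCoeff_zero_cuspForm f
    rcases eq_or_ne n 1 with rfl | hn1
    · exact h1
    have hℓ : (n.minFac).Prime := Nat.minFac_prime hn1
    obtain ⟨m, hm⟩ := Nat.minFac_dvd n
    have hmpos : 0 < m := by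
      rcases Nat.eq_zero_or_pos m with rfl | h0
      · simp at hm; omega
      · exact h0
    have hmlt : m < n := by
      rw [hm]
      have := hℓ.one_lt
      nlinarith
    have hdivlt : m / n.minFac < n := lt_of_le_of_lt (Nat.div_le_self _ _) hmlt
    have := hrel _ hℓ m
    rw [← hm] at this
    rw [this, ih m hmlt, ih _ hdivlt]
    simp

/-- From a nonzero simultaneous eigenvector of all `T_ℓ` (`ℓ ∤ N`) and `U_q` (`q ∣ N`) in weight 2,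
produce a normalised eigenform with the same eigenvalues as prime coefficients. -/
theorem exists_isNormalizedEigenform_of_hecke_eigen [NeZero N] (f : CuspForm (Gamma0 N) 2)
    (hf : f ≠ 0) (lam : ℕ → ℂ)
    (hT : ∀ (ℓ : ℕ) (hℓ : ℓ.Prime) (hℓN : ¬ ℓ ∣ N), CuspForm.heckeTLin 2 hℓ hℓN f = lam ℓ • f)
    (hU : ∀ (q : ℕ) (_ : q.Prime) (hqN : q ∣ N), CuspForm.heckeULin 2 hqN f = lam q • f) :
    ∃ g : CuspForm (Gamma0 N) 2, g.IsNormalizedEigenform ∧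
      ∀ ℓ : ℕ, ℓ.Prime → qCoeff (⇑g) ℓ = lam ℓ := by
  have h1 := qCoeff_one_ne_zero_of_hecke_eigen f hf lam hT hU
  set c : ℂ := (qCoeff (⇑f) 1)⁻¹ with hc
  have hg1 : qCoeff (⇑(c • f)) 1 = 1 := by
    rw [qCoeff_smul_cuspForm, hc, inv_mul_cancel₀ h1]
  have hgT : ∀ (ℓ : ℕ) (hℓ : ℓ.Prime) (hℓN : ¬ ℓ ∣ N),
      CuspForm.heckeTLin 2 hℓ hℓN (c • f) = lam ℓ • (c • f) := by
    intro ℓ hℓ hℓN
    rw [map_smul, hT ℓ hℓ hℓN, smul_comm]
  have hgU : ∀ (q : ℕ) (_ : q.Prime) (hqN : q ∣ N),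
      CuspForm.heckeULin 2 hqN (c • f) = lam q • (c • f) := by
    intro q hq hqN
    rw [map_smul, hU q hq hqN, smul_comm]
  obtain ⟨heig, hlam⟩ := isEigensystem_of_hecke_eigen (c • f) lam hg1 hgT hgU
  exact ⟨c • f, isNormalizedEigenform_of_isEigensystem _ heig, hlam⟩

end Fermat.Agent.S49.Normalize
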