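import Fermat.Statements.S49
import Fermat.Prelude.Def_CuspForm_HeckeLocal
import Fermat.Prelude.Thm_ModularFormClass_qCoeff_heckeT
import Fermat.Prelude.Thm_ModularFormClass_qCoeff_heckeU
import Fermat.Prelude.Thm_UpperHalfPlane_eq_of_forall_qCoeff_eq

set_option autoImplicit false

open CuspForm CongruenceSubgroup ModularFormClass UpperHalfPlane

namespace Fermat.Agent.S49

variable {N : ℕ}

theorem hΓ (N : ℕ) : (1 : ℝ) ∈ (Subgroup.map (Matrix.SpecialLinearGroup.mapGL ℝ) (Gamma0 N)).strictPeriods :=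
  CongruenceSubgroup.one_mem_strictPeriods_Gamma0 N

theorem qCoeff_add' (f g : CuspForm (Gamma0 N) 2) (n : ℕ) :
    qCoeff ⇑(f + g) n = qCoeff ⇑f n + qCoeff ⇑g n := by
  simp only [qCoeff, FunLike.coe_add]
  rw [ModularForm.qExpansion_add one_pos (hΓ N) f g, map_add]

theorem qCoeff_sub' (f g : CuspForm (Gamma0 N) 2) (n : ℕ) :
    qCoeff ⇑(f - g) n = qCoeff ⇑f n - qCoeff ⇑g n := by
  simp only [qCoeff, FunLike.coe_sub]
  rw [ModularForm.qExpansion_sub one_pos (hΓ N) f g, map_sub]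

theorem qCoeff_smul' (c : ℂ) (f : CuspForm (Gamma0 N) 2) (n : ℕ) :
    qCoeff ⇑(c • f) n = c * qCoeff ⇑f n := by
  have h1 : ⇑(c • f) = c • ⇑f := FunLike.coe_smul c f
  simp only [qCoeff, h1]
  rw [ModularForm.qExpansion_smul one_pos (hΓ N) c f]
  simp

theorem qCoeff_zero_idx (f : CuspForm (Gamma0 N) 2) : qCoeff ⇑f 0 = 0 :=
  CuspFormClass.qExpansion_coeff_zero f one_pos (hΓ N)


theorem qCoeff_heckeTLin {p : ℕ} (hp : p.Prime) (hpN : ¬ p ∣ N) (f : CuspForm (Gamma0 N) 2) (n : ℕ) :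
    qCoeff ⇑(CuspForm.heckeTLin 2 hp hpN f) n =
      qCoeff ⇑f (n * p) + if p ∣ n then (p : ℂ) * qCoeff ⇑f (n / p) else 0 := by
  rw [CuspForm.coe_heckeTLin_apply, ModularFormClass.qCoeff_heckeT f (hΓ N) hp.ne_zero n,
    ModularForm.coeffHeckeT_apply]
  norm_num

theorem qCoeff_heckeULin [NeZero N] {p : ℕ} (hpN : p ∣ N) (hp : p ≠ 0) (f : CuspForm (Gamma0 N) 2) (n : ℕ) :
    qCoeff ⇑(CuspForm.heckeULin 2 hpN f) n = qCoeff ⇑f (n * p) := by
  rw [CuspForm.coe_heckeULin_apply, ModularFormClass.qCoeff_heckeU f (hΓ N) hp n,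
    ModularForm.coeffHeckeU_apply]

theorem ext_qCoeff {f g : CuspForm (Gamma0 N) 2} (h : ∀ n, qCoeff ⇑f n = qCoeff ⇑g n) : f = g := by
  apply DFunLike.coe_injective
  have hc : Fact (IsCusp OnePoint.infty
      (Subgroup.map (Matrix.SpecialLinearGroup.mapGL ℝ) (Gamma0 N))) :=
    ⟨Subgroup.isCusp_of_mem_strictPeriods one_pos (hΓ N)⟩
  exact UpperHalfPlane.eq_of_forall_qCoeff_eq
    (SlashInvariantFormClass.periodic_comp_ofComplex f (hΓ N)) (ModularFormClass.holo f)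
    (ModularFormClass.bdd_at_infty f)
    (SlashInvariantFormClass.periodic_comp_ofComplex g (hΓ N)) (ModularFormClass.holo g)
    (ModularFormClass.bdd_at_infty g) h


theorem mem_qIntegralSet_iff (f : CuspForm (Gamma0 N) 2) :
    f ∈ CuspForm.qIntegralSet N ↔ ∀ n : ℕ, ∃ m : ℤ, qCoeff ⇑f n = (m : ℂ) := by
  simp only [CuspForm.qIntegralSet, Set.mem_ofPred_eq, Subring.mem_bot]
  exact forall_congr' fun n => ⟨fun ⟨m, hm⟩ => ⟨m, hm.symm⟩, fun ⟨m, hm⟩ => ⟨m, hm.symm⟩⟩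

def intSubmodule (N : ℕ) : Submodule ℤ (CuspForm (Gamma0 N) 2) where
  carrier := {f | ∀ n : ℕ, ∃ m : ℤ, qCoeff ⇑f n = (m : ℂ)}
  add_mem' {f g} hf hg n := by
    obtain ⟨a, ha⟩ := hf n
    obtain ⟨b, hb⟩ := hg n
    exact ⟨a + b, by rw [qCoeff_add', ha, hb]; push_cast; ring⟩
  zero_mem' n := ⟨0, by
    simp only [qCoeff, FunLike.coe_zero]
    rw [UpperHalfPlane.qExpansion_zero, map_zero]; simp⟩
  smul_mem' c {f} hf n := by
    obtain ⟨a, ha⟩ := hf n
    refine ⟨c * a, ?_⟩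
    have : c • f = (c : ℂ) • f := (Int.cast_smul_eq_zsmul ℂ c f).symm
    rw [this, qCoeff_smul', ha]; push_cast; ring

theorem mem_intLattice_iff' (f : CuspForm (Gamma0 N) 2) :
    f ∈ CuspForm.intLattice N 2 ↔ ∀ n : ℕ, ∃ m : ℤ, qCoeff ⇑f n = (m : ℂ) := by
  have : CuspForm.intLattice N 2 = intSubmodule N := Submodule.span_eq (intSubmodule N)
  rw [this]
  rfl

theorem hasIntegralStructure_of_hasIntegralBasis (h : CuspForm.HasIntegralBasis N) :
    CuspForm.HasIntegralStructure N 2 := by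
  unfold CuspForm.HasIntegralStructure
  rw [eq_top_iff, ← h]
  apply Submodule.span_mono
  intro f hf
  exact (mem_intLattice_iff' f).mpr ((mem_qIntegralSet_iff f).mp hf)

theorem finiteDimensional_of_hasIntegralBasis [NeZero N] (h : CuspForm.HasIntegralBasis N) :
    FiniteDimensional ℂ (CuspForm (Gamma0 N) 2) := by
  obtain ⟨S, hS⟩ := CuspForm.intLattice_fg N 2
  have h2 := hasIntegralStructure_of_hasIntegralBasis h
  unfold CuspForm.HasIntegralStructure at h2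
  refine ⟨⟨S, ?_⟩⟩
  rw [eq_top_iff, ← h2]
  apply Submodule.span_le.mpr
  intro f hf
  rw [← hS] at hf
  exact Submodule.span_le_restrictScalars ℤ ℂ _ hf

theorem heckeAlgebra_finite [NeZero N] (h : CuspForm.HasIntegralBasis N) :
    Module.Finite ℤ (CuspForm.heckeAlgebra N 2 ∅) := by
  have hb := CuspForm.latticeRestrictHom_bijective N ∅ (hasIntegralStructure_of_hasIntegralBasis h)
  let e := AlgEquiv.ofBijective (CuspForm.latticeRestrictHom N ∅) hb
  exact Module.Finite.equiv e.symm.toLinearEquiv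


section Operators

variable [NeZero N]

noncomputable def Tp (N : ℕ) [NeZero N] {p : ℕ} (hp : p.Prime) : CuspForm.heckeAlgebra N 2 ∅ :=
  if h : p ∣ N then CuspForm.heckeAlgebra.U hp h (Set.notMem_empty _)
  else CuspForm.heckeAlgebra.T hp h (Set.notMem_empty _)

def eN (N : ℕ) (p : ℕ) : ℤ := if p ∣ N then 0 else (p : ℤ)

theorem qCoeff_Tp {p : ℕ} (hp : p.Prime) (f : CuspForm (Gamma0 N) 2) (n : ℕ) :
    qCoeff ⇑((Tp N hp : Module.End ℂ (CuspForm (Gamma0 N) 2)) f) n =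
      qCoeff ⇑f (p * n) + (eN N p : ℂ) * (if p ∣ n then qCoeff ⇑f (n / p) else 0) := by
  unfold Tp eN
  by_cases h : p ∣ N
  · rw [dif_pos h, if_pos h, CuspForm.heckeAlgebra.coe_U, qCoeff_heckeULin h hp.ne_zero, mul_comm]
    simp
  · rw [dif_neg h, if_neg h, CuspForm.heckeAlgebra.coe_T, qCoeff_heckeTLin hp h, mul_comm]
    split_ifs <;> simp

end Operators


theorem exists_lattice_third (F : CuspForm (Gamma0 N) 2) (b : ℕ → ℤ)
    (hb : ∀ n, qCoeff ⇑F n = ((3 * b n : ℤ) : ℂ)) :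
    ∃ g ∈ CuspForm.intLattice N 2, F = (3 : ℂ) • g := by
  refine ⟨(3 : ℂ)⁻¹ • F, ?_, ?_⟩
  · rw [mem_intLattice_iff']
    intro n
    refine ⟨b n, ?_⟩
    rw [qCoeff_smul', hb]
    push_cast
    field_simp
  · rw [smul_smul, mul_inv_cancel₀ (by norm_num), one_smul]

theorem three_dvd_natCast_sub_chi (p : ℕ) :
    (3 : ℤ) ∣ (p : ℤ) - EisensteinWeightOne.chiNegThree p := by
  unfold EisensteinWeightOne.chiNegThree
  split_ifs <;> omega

section Congruence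

variable [NeZero N] {a : ℕ → ℤ}
  (heig : FormalHecke.IsEigensystem
    (fun ℓ => if ℓ ∣ N then 0 else ((EisensteinWeightOne.chiNegThree ℓ : ℤ) : ℤ)) a)
  {f₀ : CuspForm (Gamma0 N) 2} {af : ℕ → ℤ} (haf : ∀ n, (af n : ℂ) = qCoeff ⇑f₀ n)
  (hcong : ∀ n, (3 : ℤ) ∣ af n - a n)

include heig haf hcong in
theorem Tp_sub_mem {p : ℕ} (hp : p.Prime) :
    ∃ g ∈ CuspForm.intLattice N 2,
      (Tp N hp : Module.End ℂ (CuspForm (Gamma0 N) 2)) f₀ - (a p : ℂ) • f₀ = (3 : ℂ) • g := by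
  have key : ∀ n : ℕ, (3 : ℤ) ∣
      af (p * n) + eN N p * (if p ∣ n then af (n / p) else 0) - a p * af n := by
    intro n
    have h0 := heig.2 p hp n
    have h1 : af (p * n) ≡ a (p * n) [ZMOD 3] := (Int.modEq_iff_dvd.mpr (hcong _)).symm
    have h2 : (if p ∣ n then af (n / p) else 0) ≡ (if p ∣ n then a (n / p) else 0) [ZMOD 3] := by
      split_ifs
      · exact (Int.modEq_iff_dvd.mpr (hcong _)).symm
      · rfl
    have h3 : eN N p ≡ (if p ∣ N then 0 else EisensteinWeightOne.chiNegThree p) [ZMOD 3] := by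
      unfold eN
      split_ifs
      · rfl
      · exact (Int.modEq_iff_dvd.mpr (three_dvd_natCast_sub_chi p)).symm
    have h4 : af n ≡ a n [ZMOD 3] := (Int.modEq_iff_dvd.mpr (hcong _)).symm
    have h5 := (h1.add (h3.mul h2)).sub ((Int.ModEq.refl (a p)).mul h4)
    rw [h0, sub_self] at h5
    exact Int.modEq_zero_iff_dvd.mp h5
  choose b hb using key
  apply exists_lattice_third _ b
  intro n
  rw [qCoeff_sub', qCoeff_smul', qCoeff_Tp, ← hb n]
  simp only [← haf]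
  split_ifs <;> push_cast <;> ring


/-- The ideal of Hecke operators sending `f₀` into `3 L`. -/
def mIdeal (f₀ : CuspForm (Gamma0 N) 2) : Ideal (CuspForm.heckeAlgebra N 2 ∅) where
  carrier := {t | ∃ g ∈ CuspForm.intLattice N 2,
    (t : Module.End ℂ (CuspForm (Gamma0 N) 2)) f₀ = (3 : ℂ) • g}
  add_mem' := by
    rintro s t ⟨g₁, hg₁, h₁⟩ ⟨g₂, hg₂, h₂⟩
    refine ⟨g₁ + g₂, add_mem hg₁ hg₂, ?_⟩
    rw [Subalgebra.coe_add, LinearMap.add_apply, h₁, h₂, smul_add]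
  zero_mem' := ⟨0, zero_mem _, by simp⟩
  smul_mem' := by
    rintro s t ⟨g, hg, h⟩
    refine ⟨(s : Module.End ℂ (CuspForm (Gamma0 N) 2)) g,
      CuspForm.mem_intLattice_of_mem_heckeAlgebra one_le_two s.2 hg, ?_⟩
    rw [smul_eq_mul, Subalgebra.coe_mul, Module.End.mul_apply, h, map_smul]

theorem mem_mIdeal_iff (f₀ : CuspForm (Gamma0 N) 2) (t : CuspForm.heckeAlgebra N 2 ∅) :
    t ∈ mIdeal f₀ ↔ ∃ g ∈ CuspForm.intLattice N 2,
      (t : Module.End ℂ (CuspForm (Gamma0 N) 2)) f₀ = (3 : ℂ) • g := Iff.rfl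

include heig haf hcong in
theorem exists_int_sub_mem_aux :
    ∀ x ∈ CuspForm.heckeAlgebra N 2 ∅, ∃ c : ℤ, ∃ g ∈ CuspForm.intLattice N 2,
      x f₀ - (c : ℂ) • f₀ = (3 : ℂ) • g := by
  intro x hx
  refine Algebra.adjoin_induction (p := fun x _ => ∃ c : ℤ, ∃ g ∈ CuspForm.intLattice N 2,
      x f₀ - (c : ℂ) • f₀ = (3 : ℂ) • g) ?_ ?_ ?_ ?_ hx
  · rintro x (⟨ℓ, hℓ, hℓN, -, rfl⟩ | ⟨q, hqN, hq, -, rfl⟩)
    · obtain ⟨g, hg, h⟩ := Tp_sub_mem heig haf hcong hℓ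
      refine ⟨a ℓ, g, hg, ?_⟩
      rw [← h, Tp, dif_neg hℓN, CuspForm.heckeAlgebra.coe_T]
    · obtain ⟨g, hg, h⟩ := Tp_sub_mem heig haf hcong hq
      refine ⟨a q, g, hg, ?_⟩
      rw [← h, Tp, dif_pos hqN, CuspForm.heckeAlgebra.coe_U]
  · intro r
    refine ⟨r, 0, zero_mem _, ?_⟩
    rw [Algebra.algebraMap_eq_smul_one, LinearMap.smul_apply, Module.End.one_apply,
      Int.cast_smul_eq_zsmul, sub_self, smul_zero]
  · rintro x y _ _ ⟨c₁, g₁, hg₁, h₁⟩ ⟨c₂, g₂, hg₂, h₂⟩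
    refine ⟨c₁ + c₂, g₁ + g₂, add_mem hg₁ hg₂, ?_⟩
    rw [LinearMap.add_apply, smul_add, ← h₁, ← h₂]
    push_cast
    rw [add_smul]
    abel
  · rintro x y hx _ ⟨c₁, g₁, hg₁, h₁⟩ ⟨c₂, g₂, hg₂, h₂⟩
    refine ⟨c₁ * c₂, c₂ • g₁ + x g₂, add_mem (Submodule.smul_mem _ _ hg₁)
      (CuspForm.mem_intLattice_of_mem_heckeAlgebra one_le_two hx hg₂), ?_⟩
    have e₂ : y f₀ = (c₂ : ℂ) • f₀ + (3 : ℂ) • g₂ := by rw [← h₂]; abel
    have e₁ : x f₀ = (c₁ : ℂ) • f₀ + (3 : ℂ) • g₁ := by rw [← h₁]; abel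
    rw [Module.End.mul_apply, e₂, map_add, map_smul, map_smul, e₁, ← Int.cast_smul_eq_zsmul ℂ c₂ g₁]
    push_cast
    simp only [smul_add, smul_smul]
    rw [mul_comm (3 : ℂ) (c₂ : ℂ), mul_comm (c₁ : ℂ) (c₂ : ℂ)]
    abel

omit [NeZero N] in
theorem intCast_end_apply (c : ℤ) (f : CuspForm (Gamma0 N) 2) :
    ((c : Module.End ℂ (CuspForm (Gamma0 N) 2))) f = (c : ℂ) • f := by
  rw [← zsmul_one, LinearMap.smul_apply, Module.End.one_apply, Int.cast_smul_eq_zsmul]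

theorem coe_intCast_apply (c : ℤ) (f : CuspForm (Gamma0 N) 2) :
    (((c : CuspForm.heckeAlgebra N 2 ∅) : Module.End ℂ (CuspForm (Gamma0 N) 2))) f =
      (c : ℂ) • f := by
  rw [SubringClass.coe_intCast, intCast_end_apply]

include heig haf hcong in
theorem exists_int_sub_mem (t : CuspForm.heckeAlgebra N 2 ∅) :
    ∃ c : ℤ, t - (c : CuspForm.heckeAlgebra N 2 ∅) ∈ mIdeal f₀ := by
  obtain ⟨c, g, hg, h⟩ := exists_int_sub_mem_aux heig haf hcong t.1 t.2
  refine ⟨c, g, hg, ?_⟩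
  rw [← h, Subalgebra.coe_sub, LinearMap.sub_apply, coe_intCast_apply]

omit [NeZero N] in
include heig hcong in
theorem not_three_dvd_af_one : ¬ (3 : ℤ) ∣ af 1 := by
  intro h
  have h1 := hcong 1
  rw [heig.1] at h1
  omega

include heig haf hcong in
theorem intCast_mem_mIdeal_iff (c : ℤ) :
    (c : CuspForm.heckeAlgebra N 2 ∅) ∈ mIdeal f₀ ↔ (3 : ℤ) ∣ c := by
  constructor
  · rintro ⟨g, hg, h⟩
    rw [coe_intCast_apply] at h
    obtain ⟨m, hm⟩ := (mem_intLattice_iff' g).mp hg 1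
    have h1 := congrArg (fun F : CuspForm (Gamma0 N) 2 => qCoeff ⇑F 1) h
    simp only [qCoeff_smul', ← haf, hm] at h1
    have h2 : c * af 1 = 3 * m := by exact_mod_cast h1
    have h3 : (3 : ℤ) ∣ c * af 1 := ⟨m, h2⟩
    exact (Int.prime_three.dvd_or_dvd h3).resolve_right (not_three_dvd_af_one heig hcong)
  · rintro ⟨c', rfl⟩
    refine ⟨c' • f₀, ?_, ?_⟩
    · apply Submodule.smul_mem
      rw [mem_intLattice_iff']
      exact fun n => ⟨af n, (haf n).symm⟩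
    · rw [coe_intCast_apply, ← Int.cast_smul_eq_zsmul ℂ c' f₀, smul_smul]
      push_cast
      rfl

include heig haf hcong in
theorem mIdeal_isMaximal : (mIdeal f₀).IsMaximal := by
  rw [Ideal.isMaximal_iff]
  constructor
  · intro h1
    have : ((1 : ℤ) : CuspForm.heckeAlgebra N 2 ∅) ∈ mIdeal f₀ := by
      rwa [Int.cast_one]
    rw [intCast_mem_mIdeal_iff heig haf hcong] at this
    omega
  · intro J x hJ hx hxJ
    obtain ⟨c, hc⟩ := exists_int_sub_mem heig haf hcong x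
    have hcJ : (c : CuspForm.heckeAlgebra N 2 ∅) ∈ J := by
      have := J.sub_mem hxJ (hJ hc)
      rwa [sub_sub_cancel] at this
    have hc3 : ¬ (3 : ℤ) ∣ c := by
      intro h3
      apply hx
      have := (mIdeal f₀).add_mem hc ((intCast_mem_mIdeal_iff heig haf hcong c).mpr h3)
      rwa [sub_add_cancel] at this
    have h3J : ((3 : ℤ) : CuspForm.heckeAlgebra N 2 ∅) ∈ J :=
      hJ ((intCast_mem_mIdeal_iff heig haf hcong 3).mpr dvd_rfl)
    have hcop : IsCoprime c 3 :=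
      ((Int.prime_three.irreducible.coprime_iff_not_dvd).mpr hc3).symm
    obtain ⟨u, w, huw⟩ := hcop
    have : ((u * c + w * 3 : ℤ) : CuspForm.heckeAlgebra N 2 ∅) ∈ J := by
      push_cast
      exact J.add_mem (J.mul_mem_left _ hcJ) (J.mul_mem_left _ h3J)
    rwa [huw, Int.cast_one] at this

include heig haf hcong in
theorem Tp_sub_intCast_mem {p : ℕ} (hp : p.Prime) :
    Tp N hp - (a p : CuspForm.heckeAlgebra N 2 ∅) ∈ mIdeal f₀ := by
  obtain ⟨g, hg, h⟩ := Tp_sub_mem heig haf hcong hp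
  refine ⟨g, hg, ?_⟩
  rw [← h, Subalgebra.coe_sub, LinearMap.sub_apply, coe_intCast_apply]

end Congruence

end Fermat.Agent.S49
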