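import Mathlib
import Fermat.Prelude.Def_CuspForm_IntegralLattice

set_option autoImplicit false

namespace Fermat.Agent.S49

open EisensteinWeightOne

theorem e1Chi3In_int_eq : e1Chi3In ℤ = 1 + PowerSeries.C (3 : ℤ) *
    PowerSeries.mk (fun n => if n = 0 then 0 else 2 * sigmaChi n) := by
  ext m
  simp only [e1Chi3In, e1Chi3, PowerSeries.coeff_map, PowerSeries.coeff_mk, map_add,
    PowerSeries.coeff_one, PowerSeries.coeff_C_mul]
  split_ifs
  · simp
  · simp only [eq_intCast, Int.cast_id, zero_add]; ring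

theorem three_dvd_bridge_coeff_sub (a : ℕ → ℤ) (n : ℕ) :
    (3 : ℤ) ∣ (bridgeProduct a).coeff n - a n := by
  unfold bridgeProduct
  rw [e1Chi3In_int_eq, mul_add, mul_one, map_add, PowerSeries.coeff_mk, mul_left_comm,
    PowerSeries.coeff_C_mul, add_sub_cancel_left]
  exact dvd_mul_right _ _

end Fermat.Agent.S49
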