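import Mathlib

set_option autoImplicit false

namespace Fermat.Agent.S49

open Module

variable {K V : Type*} [Field K] [IsAlgClosed K] [AddCommGroup V] [Module K V]
  [FiniteDimensional K V]

theorem exists_common_eigenvector_aux (F : Set (Module.End K V))
    (hF : ∀ f ∈ F, ∀ g ∈ F, Commute f g) :
    ∀ (n : ℕ) (W : Submodule K V), finrank K W = n → W ≠ ⊥ →
      (∀ f ∈ F, ∀ w ∈ W, f w ∈ W) →
      ∃ w ∈ W, w ≠ 0 ∧ ∀ f ∈ F, ∃ μ : K, f w = μ • w := by
  intro n
  induction n using Nat.strong_induction_on with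
  | _ n ih =>
    intro W hn hW hinv
    by_cases hsc : ∀ f ∈ F, ∃ μ : K, ∀ w ∈ W, f w = μ • w
    · obtain ⟨w, hwW, hw0⟩ := Submodule.exists_mem_ne_zero_of_ne_bot hW
      exact ⟨w, hwW, hw0, fun f hf => (hsc f hf).imp fun μ h => h w hwW⟩
    · push Not at hsc
      obtain ⟨f, hfF, hf⟩ := hsc
      have : Nontrivial W := Submodule.nontrivial_iff_ne_bot.mpr hW
      obtain ⟨μ, hμ⟩ := Module.End.exists_eigenvalue (f.restrict (hinv f hfF))
      obtain ⟨w0, hw0⟩ := hμ.exists_hasEigenvector
      set W' : Submodule K V := W ⊓ Module.End.eigenspace f μ with hW'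
      have hw0' : (w0 : V) ∈ W' := by
        refine ⟨w0.2, ?_⟩
        rw [SetLike.mem_coe, Module.End.mem_eigenspace_iff]
        have := hw0.apply_eq_smul
        exact congrArg Subtype.val this
      have hw0ne : (w0 : V) ≠ 0 := fun h => hw0.2 (Subtype.ext h)
      have hW'bot : W' ≠ ⊥ := fun h => hw0ne (by
        have : (w0 : V) ∈ (⊥ : Submodule K V) := h ▸ hw0'
        simpa using this)
      have hW'le : W' ≤ W := inf_le_left
      have hW'ne : W' ≠ W := by
        intro h
        obtain ⟨w, hwW, hw⟩ := hf μ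
        apply hw
        have : w ∈ W' := h ▸ hwW
        exact Module.End.mem_eigenspace_iff.mp this.2
      have hlt : W' < W := lt_of_le_of_ne hW'le hW'ne
      have hfin : finrank K W' < n := hn ▸ Submodule.finrank_lt_finrank_of_lt hlt
      have hinv' : ∀ g ∈ F, ∀ w ∈ W', g w ∈ W' := by
        intro g hg w hw
        refine ⟨hinv g hg w hw.1, ?_⟩
        rw [SetLike.mem_coe, Module.End.mem_eigenspace_iff]
        have h1 : f w = μ • w := Module.End.mem_eigenspace_iff.mp hw.2
        have h2 : f (g w) = g (f w) := by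
          have := hF f hfF g hg
          exact congrArg (fun t : Module.End K V => t w) this.eq
        rw [h2, h1, map_smul]
      obtain ⟨w, hwW', hw0, hw⟩ := ih _ hfin W' rfl hW'bot hinv'
      exact ⟨w, hW'le hwW', hw0, hw⟩

theorem exists_common_eigenvector (F : Set (Module.End K V))
    (hF : ∀ f ∈ F, ∀ g ∈ F, Commute f g) (W : Submodule K V) (hW : W ≠ ⊥)
    (hinv : ∀ f ∈ F, ∀ w ∈ W, f w ∈ W) :
    ∃ w ∈ W, w ≠ 0 ∧ ∀ f ∈ F, ∃ μ : K, f w = μ • w :=
  exists_common_eigenvector_aux F hF _ W rfl hW hinv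

end Fermat.Agent.S49
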