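import Mathlib
import Fermat.Agent.S49.CommonEigen

set_option autoImplicit false

namespace Fermat.Agent.S49

open Module

theorem exists_annihilated_of_minimalPrime {R : Type*} [CommRing R] [IsNoetherianRing R]
    {𝔭 : Ideal R} (h𝔭 : 𝔭 ∈ minimalPrimes R) :
    ∃ s : R, s ≠ 0 ∧ ∀ t ∈ 𝔭, t * s = 0 := by
  have hann : Module.annihilator R R = ⊥ := Module.annihilator_eq_bot.mpr inferInstance
  have hass : 𝔭 ∈ associatedPrimes R R := by
    apply Module.associatedPrimes.minimalPrimes_annihilator_subset_associatedPrimes R R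
    rw [hann]
    exact h𝔭
  obtain ⟨hprime, s, hs⟩ := (isAssociatedPrime_iff).mp hass
  refine ⟨s, ?_, ?_⟩
  · rintro rfl
    apply hprime.ne_top
    rw [hs, eq_top_iff]
    intro x _
    rw [Submodule.mem_colon_singleton]
    simp
  · intro t ht
    rw [hs, Submodule.mem_colon_singleton] at ht
    simpa using ht

end Fermat.Agent.S49

namespace Fermat.Agent.S49

open Module

theorem exists_eigen_lift {R V : Type*} [CommRing R] [Module.Finite ℤ R]
    [AddCommGroup V] [Module ℂ V] [FiniteDimensional ℂ V]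
    (ρ : R →+* Module.End ℂ V) (hρ : Function.Injective ρ)
    (𝔪 : Ideal R) [h𝔪 : 𝔪.IsMaximal] :
    ∃ (θ : R →+* integralClosure ℤ ℂ) (v : V) (𝔪' : Ideal (integralClosure ℤ ℂ)),
      v ≠ 0 ∧ (∀ t : R, ρ t v = ((θ t : integralClosure ℤ ℂ) : ℂ) • v) ∧ 𝔪'.IsMaximal ∧
      ∀ t ∈ 𝔪, θ t ∈ 𝔪' := by
  have hnoeth : IsNoetherianRing R := IsNoetherianRing.of_finite ℤ R
  obtain ⟨𝔭, h𝔭min, h𝔭le⟩ := Ideal.exists_minimalPrimes_le (I := ⊥) (J := 𝔪) bot_le
  have h𝔭prime : 𝔭.IsPrime := h𝔭min.1.1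
  obtain ⟨s, hs0, hs⟩ := exists_annihilated_of_minimalPrime h𝔭min
  -- the subspace killed by 𝔭
  let W : Submodule ℂ V := ⨅ t : 𝔭, LinearMap.ker (ρ t)
  have hWmem : ∀ w : V, w ∈ W ↔ ∀ t ∈ 𝔭, ρ t w = 0 := by
    intro w
    simp only [W, Submodule.mem_iInf, LinearMap.mem_ker, Subtype.forall]
  have hρs : ρ s ≠ 0 := fun h => hs0 (hρ (h.trans (map_zero ρ).symm))
  obtain ⟨w0, hw0⟩ : ∃ w0 : V, ρ s w0 ≠ 0 := by
    by_contra hcon
    push Not at hcon
    exact hρs (LinearMap.ext hcon)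
  have hWbot : W ≠ ⊥ := by
    intro h
    apply hw0
    have : ρ s w0 ∈ W := by
      rw [hWmem]
      intro t ht
      rw [← Module.End.mul_apply, ← map_mul, hs t ht, map_zero, LinearMap.zero_apply]
    rw [h] at this
    simpa using this
  let F : Set (Module.End ℂ V) := Set.range ρ
  have hF : ∀ f ∈ F, ∀ g ∈ F, Commute f g := by
    rintro _ ⟨a, rfl⟩ _ ⟨b, rfl⟩
    exact (Commute.all a b).map ρ
  have hinv : ∀ f ∈ F, ∀ w ∈ W, f w ∈ W := by
    rintro _ ⟨a, rfl⟩ w hw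
    rw [hWmem] at hw ⊢
    intro t ht
    rw [← Module.End.mul_apply, ← map_mul, mul_comm, map_mul, Module.End.mul_apply, hw t ht,
      map_zero]
  obtain ⟨v, hvW, hv0, hv⟩ := exists_common_eigenvector F hF W hWbot hinv
  have hv' : ∀ t : R, ∃ μ : ℂ, ρ t v = μ • v := fun t => hv (ρ t) ⟨t, rfl⟩
  choose χ hχ using hv'
  have hinj : Function.Injective (fun c : ℂ => c • v) := smul_left_injective ℂ hv0
  let θ₀ : R →+* ℂ :=
    { toFun := χ
      map_one' := hinj (by simp only [← hχ, map_one, Module.End.one_apply, one_smul])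
      map_mul' := fun a b => hinj (by
        simp only [← hχ, map_mul, Module.End.mul_apply, mul_smul]
        rw [hχ b, map_smul, hχ a, smul_comm])
      map_zero' := hinj (by simp only [← hχ, map_zero, LinearMap.zero_apply, zero_smul])
      map_add' := fun a b => hinj (by
        simp only [← hχ, map_add, LinearMap.add_apply, add_smul]) }
  have hθ₀ : ∀ t, ρ t v = θ₀ t • v := hχ
  have hint : ∀ t : R, θ₀ t ∈ integralClosure ℤ ℂ := fun t =>
    (IsIntegral.of_finite ℤ t).map θ₀.toIntAlgHom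
  let θ : R →+* integralClosure ℤ ℂ := (θ₀.toIntAlgHom.codRestrict _ hint).toRingHom
  have hθ : ∀ t, ((θ t : integralClosure ℤ ℂ) : ℂ) = θ₀ t := fun t => rfl
  -- kernel of θ is 𝔭
  have hker𝔭 : 𝔭 ≤ RingHom.ker θ := by
    intro t ht
    rw [RingHom.mem_ker]
    apply Subtype.ext
    rw [hθ]
    apply hinj
    simp only [← hθ₀, zero_smul, ZeroMemClass.coe_zero]
    exact (hWmem v).mp hvW t ht
  have hkerℤ : (RingHom.ker θ).comap (algebraMap ℤ R) = ⊥ := by
    rw [eq_bot_iff]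
    intro n hn
    rw [Ideal.mem_comap, RingHom.mem_ker] at hn
    have h1 : ((θ (algebraMap ℤ R n) : integralClosure ℤ ℂ) : ℂ) = (n : ℂ) := by
      rw [hθ]; simp
    rw [hn] at h1
    simpa using h1.symm
  have hker : RingHom.ker θ = 𝔭 := by
    by_contra hne
    have hlt : 𝔭 < RingHom.ker θ := lt_of_le_of_ne hker𝔭 (Ne.symm hne)
    obtain ⟨x, hxker, hx𝔭⟩ := Set.exists_of_ssubset hlt
    have := Ideal.comap_lt_comap_of_integral_mem_sdiff (R := ℤ) hker𝔭 ⟨hxker, hx𝔭⟩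
      (IsIntegral.of_finite ℤ x)
    rw [hkerℤ] at this
    exact not_lt_bot this
  -- going up
  let _ : Algebra R (integralClosure ℤ ℂ) := θ.toAlgebra
  have hintR : Algebra.IsIntegral R (integralClosure ℤ ℂ) :=
    Algebra.IsIntegral.tower_top (R := ℤ)
  obtain ⟨Q, hQmax, hQ⟩ := Ideal.exists_ideal_over_maximal_of_isIntegral (S := integralClosure ℤ ℂ)
    𝔪 (by
      show RingHom.ker θ ≤ 𝔪
      rw [hker]; exact h𝔭le)
  refine ⟨θ, v, Q, hv0, fun t => by rw [hθ]; exact hθ₀ t, hQmax, fun t ht => ?_⟩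
  have : t ∈ Q.comap (algebraMap R (integralClosure ℤ ℂ)) := hQ ▸ ht
  exact this

end Fermat.Agent.S49
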