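import Mathlib
import Fermat.Prelude.Def_FormalHecke_Eigensystem

set_option autoImplicit false

namespace Fermat.Agent.S49

variable {R : Type*} [CommRing R]

theorem mul_of_isEigensystem {e c : ℕ → R} (h : FormalHecke.IsEigensystem e c) :
    ∀ m n : ℕ, m.Coprime n → c (m * n) = c m * c n := by
  obtain ⟨h1, hrec⟩ := h
  intro m
  induction m using Nat.strong_induction_on with
  | _ m ih =>
    intro n hmn
    rcases Nat.lt_or_ge m 2 with hm | hm
    · interval_cases m
      · have : n = 1 := by simpa using hmn
        subst this; simp [h1]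
      · simp [h1]
    · obtain ⟨p, hp, hpm⟩ := Nat.exists_prime_and_dvd (by omega : m ≠ 1)
      obtain ⟨m', rfl⟩ := hpm
      have hm'pos : 0 < m' := by
        rcases Nat.eq_zero_or_pos m' with h | h
        · subst h; omega
        · exact h
      have hm'lt : m' < p * m' := by nlinarith [hp.two_le]
      have hcop' : m'.Coprime n := Nat.Coprime.coprime_mul_left hmn
      have hpn : ¬ p ∣ n := by
        intro hpn
        have : p ∣ Nat.gcd (p * m') n := Nat.dvd_gcd (dvd_mul_right p m') hpn
        rw [hmn] at this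
        exact hp.one_lt.ne' (Nat.dvd_one.mp this)
      have e1 := hrec p hp (m' * n)
      have e2 := hrec p hp m'
      rw [mul_assoc]
      by_cases hpm' : p ∣ m'
      · have hpm'n : p ∣ m' * n := hpm'.mul_right n
        rw [if_pos hpm'n] at e1
        rw [if_pos hpm'] at e2
        obtain ⟨m'', rfl⟩ := hpm'
        have hdiv : p * m'' * n / p = m'' * n := by
          rw [mul_assoc, Nat.mul_div_cancel_left _ hp.pos]
        rw [hdiv] at e1
        rw [Nat.mul_div_cancel_left _ hp.pos] at e2
        have ih1 := ih (p * m'') hm'lt n hcop'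
        have ih2 := ih m'' (by nlinarith [hp.two_le]) n (Nat.Coprime.coprime_mul_left hcop')
        have e1' : c (p * (p * m'' * n)) = c p * c (p * m'' * n) - e p * c (m'' * n) :=
          eq_sub_of_add_eq e1
        have e2' : c (p * (p * m'')) = c p * c (p * m'') - e p * c m'' := eq_sub_of_add_eq e2
        rw [e1', ih1, ih2, e2']; ring
      · have hpm'n : ¬ p ∣ m' * n := fun h => (hp.dvd_mul.mp h).elim hpm' hpn
        rw [if_neg hpm'n, mul_zero, add_zero] at e1
        rw [if_neg hpm', mul_zero, add_zero] at e2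
        rw [e1, ih m' hm'lt n hcop', e2, mul_assoc]

theorem pow_of_isEigensystem {e c : ℕ → R} (h : FormalHecke.IsEigensystem e c)
    (p r : ℕ) (hp : p.Prime) :
    c (p ^ (r + 2)) = c p * c (p ^ (r + 1)) - e p * c (p ^ r) := by
  have e1 := h.2 p hp (p ^ (r + 1))
  have hdvd : p ∣ p ^ (r + 1) := dvd_pow_self p (Nat.succ_ne_zero r)
  rw [if_pos hdvd] at e1
  have h1 : p * p ^ (r + 1) = p ^ (r + 2) := by ring
  have h2 : p ^ (r + 1) / p = p ^ r := by
    rw [pow_succ, Nat.mul_div_cancel _ hp.pos]
  rw [h1, h2] at e1
  exact eq_sub_of_add_eq e1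

theorem eq_zero_of_recursion {e lam c : ℕ → R} (h1 : c 1 = 0)
    (hrec : ∀ p : ℕ, p.Prime → ∀ n : ℕ,
      c (p * n) + e p * (if p ∣ n then c (n / p) else 0) = lam p * c n) :
    ∀ n : ℕ, 0 < n → c n = 0 := by
  intro n
  induction n using Nat.strong_induction_on with
  | _ n ih =>
    intro hn
    rcases Nat.lt_or_ge n 2 with hn2 | hn2
    · have : n = 1 := by omega
      subst this; exact h1
    · obtain ⟨p, hp, hpn⟩ := Nat.exists_prime_and_dvd (by omega : n ≠ 1)
      obtain ⟨m, rfl⟩ := hpn
      have hmpos : 0 < m := by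
        rcases Nat.eq_zero_or_pos m with h | h
        · subst h; omega
        · exact h
      have hmlt : m < p * m := by nlinarith [hp.two_le]
      have e1 := hrec p hp m
      rw [ih m hmlt hmpos, mul_zero] at e1
      by_cases hpm : p ∣ m
      · rw [if_pos hpm] at e1
        have hpos : 0 < m / p := Nat.div_pos (Nat.le_of_dvd hmpos hpm) hp.pos
        have hlt : m / p < p * m := lt_of_le_of_lt (Nat.div_le_self m p) hmlt
        rw [ih (m / p) hlt hpos, mul_zero, add_zero] at e1
        exact e1
      · rw [if_neg hpm, mul_zero, add_zero] at e1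
        exact e1

end Fermat.Agent.S49
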