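import Mathlib

set_option autoImplicit false

namespace Fermat.Agent.S49.EigenChar

open Module

/-- A nonzero finite-dimensional complex space stable under a commuting family has a common
eigenvector. Stated for submodules to allow induction. -/
theorem exists_common_eigenvector_aux {V : Type*} [AddCommGroup V] [Module ℂ V]
    [FiniteDimensional ℂ V] (S : Set (Module.End ℂ V))
    (hS : ∀ a ∈ S, ∀ b ∈ S, a * b = b * a) :
    ∀ (n : ℕ) (W : Submodule ℂ V), finrank ℂ W = n → W ≠ ⊥ →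
      (∀ s ∈ S, ∀ w ∈ W, s w ∈ W) →
      ∃ v ∈ W, v ≠ 0 ∧ ∀ s ∈ S, ∃ c : ℂ, s v = c • v := by
  intro n
  induction n using Nat.strong_induction_on with
  | _ n ih =>
    intro W hn hW hstab
    by_cases hsc : ∀ s ∈ S, ∃ c : ℂ, ∀ w ∈ W, s w = c • w
    · obtain ⟨v, hvW, hv0⟩ := Submodule.exists_mem_ne_zero_of_ne_bot hW
      exact ⟨v, hvW, hv0, fun s hs => (hsc s hs).imp fun c hc => hc v hvW⟩
    · push Not at hsc
      obtain ⟨s, hsS, hs⟩ := hsc
      have hsW : ∀ w ∈ W, s w ∈ W := hstab s hsS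
      have : Nontrivial W := Submodule.nontrivial_iff_ne_bot.mpr hW
      obtain ⟨μ, hμ⟩ := Module.End.exists_eigenvalue (s.restrict hsW)
      obtain ⟨w0, hw0⟩ := hμ.exists_hasEigenvector
      let W' : Submodule ℂ V := W ⊓ LinearMap.ker (s - μ • (1 : Module.End ℂ V))
      have hW'le : W' ≤ W := inf_le_left
      have hmemW' : ∀ w, w ∈ W' ↔ w ∈ W ∧ s w = μ • w := by
        intro w
        simp only [W', Submodule.mem_inf, LinearMap.mem_ker, LinearMap.sub_apply,
          LinearMap.smul_apply, Module.End.one_apply, sub_eq_zero]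
      have hW'ne : W' ≠ ⊥ := by
        intro h
        have hw0' : (w0 : V) ∈ W' := by
          rw [hmemW']
          refine ⟨w0.2, ?_⟩
          have := hw0.apply_eq_smul
          have h2 := congrArg (Subtype.val) this
          simpa using h2
        rw [h, Submodule.mem_bot] at hw0'
        exact hw0.2 (Subtype.ext hw0')
      have hW'lt : W' < W := by
        refine lt_of_le_of_ne hW'le ?_
        intro h
        obtain ⟨w, hwW, hw⟩ := hs μ
        have : w ∈ W' := h ▸ hwW
        exact hw ((hmemW' w).1 this).2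
      have hstab' : ∀ t ∈ S, ∀ w ∈ W', t w ∈ W' := by
        intro t ht w hw
        rw [hmemW'] at hw ⊢
        refine ⟨hstab t ht w hw.1, ?_⟩
        have hc : s (t w) = t (s w) := by
          have := congrArg (fun f : Module.End ℂ V => f w) (hS s hsS t ht)
          simpa using this
        rw [hc, hw.2, map_smul]
      have hlt : finrank ℂ W' < n := hn ▸ Submodule.finrank_lt_finrank_of_lt hW'lt
      obtain ⟨v, hvW', hv0, hv⟩ := ih _ hlt W' rfl hW'ne hstab'
      exact ⟨v, hW'le hvW', hv0, hv⟩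


/-- Common eigenvector for the image of a commutative ring acting on a nonzero stable subspace,
together with the eigen-character. -/
theorem exists_eigenchar_in_submodule {V : Type*} [AddCommGroup V] [Module ℂ V]
    [FiniteDimensional ℂ V] {T : Type*} [CommRing T] (ρ : T →+* Module.End ℂ V)
    (W : Submodule ℂ V) (hW : W ≠ ⊥) (hstab : ∀ t : T, ∀ w ∈ W, ρ t w ∈ W) :
    ∃ (v : V) (χ : T →+* ℂ), v ∈ W ∧ v ≠ 0 ∧ ∀ t, ρ t v = χ t • v := by
  obtain ⟨v, hvW, hv0, hv⟩ := exists_common_eigenvector_aux (Set.range ρ)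
    (by
      rintro _ ⟨a, rfl⟩ _ ⟨b, rfl⟩
      rw [← map_mul, ← map_mul, mul_comm])
    _ W rfl hW (by
      rintro _ ⟨t, rfl⟩ w hw
      exact hstab t w hw)
  have hex : ∀ t : T, ∃ c : ℂ, ρ t v = c • v := fun t => hv _ ⟨t, rfl⟩
  choose c hc using hex
  have huniq : ∀ {a b : ℂ}, a • v = b • v → a = b := fun {a b} h =>
    smul_left_injective ℂ hv0 h
  refine ⟨v, ⟨⟨⟨c, ?_⟩, ?_⟩, ?_, ?_⟩, hvW, hv0, hc⟩
  · apply huniq
    rw [← hc, map_one, Module.End.one_apply, one_smul]
  · intro a b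
    apply huniq
    rw [← hc, map_mul, Module.End.mul_apply, hc b, map_smul, hc a, smul_smul, mul_comm]
  · apply huniq
    change c 0 • v = (0 : ℂ) • v
    rw [← hc, map_zero, LinearMap.zero_apply, zero_smul]
  · intro a b
    apply huniq
    change c (a + b) • v = (c a + c b) • v
    rw [← hc, map_add, LinearMap.add_apply, hc a, hc b, add_smul]

/-- Abstract Deligne–Serre lifting: a maximal ideal of a commutative ring, finite over `ℤ`, acting
faithfully on a finite-dimensional complex space, lies under a common eigenvector character. -/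
theorem exists_eigenchar_of_maximal {V : Type*} [AddCommGroup V] [Module ℂ V]
    [FiniteDimensional ℂ V] {T : Type*} [CommRing T] [Module.Finite ℤ T]
    (ρ : T →+* Module.End ℂ V) (hρ : Function.Injective ρ) (𝔪 : Ideal T) [𝔪.IsMaximal] :
    ∃ (v : V) (χ : T →+* ℂ) (𝔪' : Ideal (integralClosure ℤ ℂ)), v ≠ 0 ∧
      (∀ t, ρ t v = χ t • v) ∧ 𝔪'.IsMaximal ∧
      ∀ t ∈ 𝔪, ∃ c : integralClosure ℤ ℂ, (c : ℂ) = χ t ∧ c ∈ 𝔪' := by
  have hNoeth : IsNoetherianRing T := IsNoetherianRing.of_finite ℤ T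
  have hInt : Algebra.IsIntegral ℤ T := Algebra.IsIntegral.of_finite ℤ T
  -- minimal prime below `𝔪`
  obtain ⟨𝔭, h𝔭min, h𝔭le⟩ := Ideal.exists_minimalPrimes_le (I := (⊥ : Ideal T)) (J := 𝔪) bot_le
  have h𝔭ass : 𝔭 ∈ associatedPrimes T T := by
    apply Module.associatedPrimes.minimalPrimes_annihilator_subset_associatedPrimes T T
    have : Module.annihilator T T = ⊥ := by
      rw [eq_bot_iff]
      intro a ha
      have := Module.mem_annihilator.mp ha (1 : T)
      simpa using this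
    rw [this]
    exact h𝔭min
  obtain ⟨h𝔭prime, x, hx⟩ := isAssociatedPrime_iff.mp h𝔭ass
  have hmem : ∀ s : T, s ∈ 𝔭 ↔ s * x = 0 := by
    intro s
    rw [hx, Submodule.mem_colon_singleton, Submodule.mem_bot, smul_eq_mul]
  have hx0 : x ≠ 0 := by
    rintro rfl
    apply h𝔭prime.ne_top
    rw [Ideal.eq_top_iff_one, hmem]
    simp
  -- the stable subspace
  have hρx : ρ x ≠ 0 := fun h => hx0 (hρ (h.trans (map_zero ρ).symm))
  have hW : LinearMap.range (ρ x) ≠ ⊥ := by
    rwa [Ne, LinearMap.range_eq_bot]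
  have hstab : ∀ t : T, ∀ w ∈ LinearMap.range (ρ x), ρ t w ∈ LinearMap.range (ρ x) := by
    rintro t _ ⟨u, rfl⟩
    refine ⟨ρ t u, ?_⟩
    rw [← Module.End.mul_apply, ← Module.End.mul_apply, ← map_mul, ← map_mul, mul_comm]
  obtain ⟨v, χ, ⟨u, rfl⟩, hv0, hv⟩ := exists_eigenchar_in_submodule ρ _ hW hstab
  -- `𝔭 ≤ ker χ`
  have h𝔭ker : 𝔭 ≤ RingHom.ker χ := by
    intro s hs
    rw [RingHom.mem_ker]
    have h1 : ρ s (ρ x u) = 0 := by
      rw [← Module.End.mul_apply, ← map_mul, (hmem s).mp hs, map_zero, LinearMap.zero_apply]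
    have h2 : χ s • ρ x u = 0 := by rw [← hv, h1]
    exact (smul_eq_zero.mp h2).resolve_right hv0
  -- `ker χ = 𝔭` by incomparability
  have hkerle : RingHom.ker χ ≤ 𝔭 := by
    by_contra hnot
    obtain ⟨y, hyker, hy𝔭⟩ := Set.not_subset.mp hnot
    have hlt := Ideal.comap_lt_comap_of_integral_mem_sdiff (R := ℤ) h𝔭ker
      (x := y) ⟨hyker, hy𝔭⟩ (Algebra.IsIntegral.isIntegral y)
    have hbot : Ideal.comap (algebraMap ℤ T) (RingHom.ker χ) = ⊥ := by
      rw [eq_bot_iff]
      intro n hn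
      rw [Ideal.mem_comap, RingHom.mem_ker, eq_intCast, map_intCast] at hn
      rw [Ideal.mem_bot]
      exact_mod_cast hn
    rw [hbot] at hlt
    exact not_lt_bot hlt
  have hker𝔪 : RingHom.ker χ ≤ 𝔪 := hkerle.trans h𝔭le
  -- land in the ring of algebraic integers
  have hχint : ∀ t : T, χ t ∈ integralClosure ℤ ℂ := by
    intro t
    have ht : IsIntegral ℤ t := Algebra.IsIntegral.isIntegral t
    exact ht.map χ.toIntAlgHom
  let χ' : T →+* integralClosure ℤ ℂ := χ.codRestrict (integralClosure ℤ ℂ) hχint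
  have hχ' : ∀ t, ((χ' t : integralClosure ℤ ℂ) : ℂ) = χ t := fun t => rfl
  let _ : Algebra T (integralClosure ℤ ℂ) := χ'.toAlgebra
  have hInt' : Algebra.IsIntegral T (integralClosure ℤ ℂ) :=
    Algebra.IsIntegral.tower_top (R := ℤ)
  have hker' : RingHom.ker (algebraMap T (integralClosure ℤ ℂ)) ≤ 𝔪 := by
    intro t ht
    apply hker𝔪
    rw [RingHom.mem_ker] at ht ⊢
    have : χ' t = 0 := ht
    rw [← hχ', this]
    rfl
  obtain ⟨Q, hQmax, hQ⟩ := Ideal.exists_ideal_over_maximal_of_isIntegral 𝔪 hker'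
  refine ⟨ρ x u, χ, Q, hv0, hv, hQmax, fun t ht => ⟨χ' t, hχ' t, ?_⟩⟩
  have : t ∈ Ideal.comap (algebraMap T (integralClosure ℤ ℂ)) Q := hQ ▸ ht
  exact this

end Fermat.Agent.S49.EigenChar
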