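import Mathlib
import Fermat.Prelude.Def_CuspForm_HeckeAlgebra
import Fermat.Prelude.Def_CuspForm_IntegralStructure
import Fermat.Prelude.Thm_CuspForm_intLattice_fg
import Fermat.Agent.S49.EigenChar
import Fermat.Agent.S49.Normalize

set_option autoImplicit false

namespace Fermat.Agent.S49.Assemble

open CuspForm CongruenceSubgroup ModularFormClass
open Fermat.Agent.S49.EigenChar Fermat.Agent.S49.Normalize

variable {N : ℕ} [NeZero N]

theorem finiteDimensional_of_hasIntegralStructure (hint : CuspForm.HasIntegralStructure N 2) :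
    FiniteDimensional ℂ (CuspForm (Gamma0 N) 2) := by
  obtain ⟨G, hG⟩ := CuspForm.intLattice_fg N 2
  refine ⟨⟨G, ?_⟩⟩
  rw [eq_top_iff, ← hint]
  apply Submodule.span_le.mpr
  intro f hf
  have hf' : f ∈ Submodule.span ℤ (G : Set (CuspForm (Gamma0 N) 2)) := by
    rw [hG]; exact hf
  exact Submodule.span_le_restrictScalars ℤ ℂ _ hf'

/-- Final wiring for S49, given finiteness of the Hecke algebra and a maximal ideal over `3`
containing all `T_ℓ - a_ℓ`. -/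
theorem exists_eigenform_of_maximal_ideal {a : ℕ → ℤ}
    (hint : CuspForm.HasIntegralStructure N 2)
    (hfin : Module.Finite ℤ (CuspForm.heckeAlgebra N 2 (∅ : Set ℕ)))
    (m3 : Ideal (CuspForm.heckeAlgebra N 2 (∅ : Set ℕ))) (hmax : m3.IsMaximal)
    (h3 : (3 : CuspForm.heckeAlgebra N 2 (∅ : Set ℕ)) ∈ m3)
    (hT : ∀ (ℓ : ℕ) (hℓ : ℓ.Prime) (hℓN : ¬ ℓ ∣ N),
      (heckeAlgebra.T hℓ hℓN (Set.notMem_empty ℓ) : CuspForm.heckeAlgebra N 2 (∅ : Set ℕ))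
        - ((a ℓ : ℤ) : CuspForm.heckeAlgebra N 2 (∅ : Set ℕ)) ∈ m3) :
    ∃ (f : CuspForm (Gamma0 N) 2) (_ : f.IsNormalizedEigenform)
      (𝔪' : Ideal (integralClosure ℤ ℂ)), 𝔪'.IsMaximal ∧
      ((3 : ℕ) : integralClosure ℤ ℂ) ∈ 𝔪' ∧
      ∀ (ℓ : ℕ) (_ : ℓ.Prime) (_ : ¬ ℓ ∣ N),
        ∃ c : integralClosure ℤ ℂ, (c : ℂ) = ModularFormClass.qCoeff f ℓ ∧
          c - (a ℓ : integralClosure ℤ ℂ) ∈ 𝔪' := by
  have := finiteDimensional_of_hasIntegralStructure hint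
  have := hfin
  have := hmax
  let ρ : CuspForm.heckeAlgebra N 2 (∅ : Set ℕ) →+*
      Module.End ℂ (CuspForm (Gamma0 N) 2) := (CuspForm.heckeAlgebra N 2 (∅ : Set ℕ)).val.toRingHom
  have hρ : Function.Injective ρ := Subtype.val_injective
  obtain ⟨v, χ, 𝔪', hv0, hv, h𝔪'max, h𝔪'⟩ := exists_eigenchar_of_maximal ρ hρ m3
  -- eigenvalue function
  let lam : ℕ → ℂ := fun ℓ =>
    if hℓ : ℓ.Prime then
      if hℓN : ℓ ∣ N then χ (heckeAlgebra.U hℓ hℓN (Set.notMem_empty ℓ))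
      else χ (heckeAlgebra.T hℓ hℓN (Set.notMem_empty ℓ))
    else 0
  have hTv : ∀ (ℓ : ℕ) (hℓ : ℓ.Prime) (hℓN : ¬ ℓ ∣ N),
      CuspForm.heckeTLin 2 hℓ hℓN v = lam ℓ • v := by
    intro ℓ hℓ hℓN
    have := hv (heckeAlgebra.T hℓ hℓN (Set.notMem_empty ℓ))
    simp only [lam, dif_pos hℓ, dif_neg hℓN]
    exact this
  have hUv : ∀ (q : ℕ) (_ : q.Prime) (hqN : q ∣ N),
      CuspForm.heckeULin 2 hqN v = lam q • v := by
    intro q hq hqN
    have := hv (heckeAlgebra.U hq hqN (Set.notMem_empty q))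
    simp only [lam, dif_pos hq, dif_pos hqN]
    exact this
  obtain ⟨g, hg, hglam⟩ := exists_isNormalizedEigenform_of_hecke_eigen v hv0 lam hTv hUv
  refine ⟨g, hg, 𝔪', h𝔪'max, ?_, ?_⟩
  · obtain ⟨c, hc, hcm⟩ := h𝔪' 3 h3
    have : c = ((3 : ℕ) : integralClosure ℤ ℂ) := by
      apply Subtype.ext
      rw [hc, map_ofNat]
      norm_cast
    rwa [← this]
  · intro ℓ hℓ hℓN
    obtain ⟨c, hc, hcm⟩ := h𝔪' _ (hT ℓ hℓ hℓN)
    refine ⟨c + (a ℓ : integralClosure ℤ ℂ), ?_, ?_⟩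
    · rw [hglam ℓ hℓ]
      simp only [lam, dif_pos hℓ, dif_neg hℓN]
      push_cast
      rw [hc, map_sub, map_intCast]
      ring
    · simpa using hcm

end Fermat.Agent.S49.Assemble
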