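import Mathlib
import Fermat.Prelude.Def_CuspForm_IntegralLattice

set_option autoImplicit false

namespace Fermat.Agent.S49.Bridge

open EisensteinWeightOne CongruenceSubgroup

theorem three_dvd_e1Chi3_sub_one : ∃ g : PowerSeries ℤ, e1Chi3In ℤ = 1 + PowerSeries.C (3 : ℤ) * g := by
  refine ⟨PowerSeries.mk fun n => if n = 0 then 0 else 2 * sigmaChi n, ?_⟩
  ext n
  simp only [e1Chi3In, e1Chi3, PowerSeries.coeff_map, PowerSeries.coeff_mk, map_add,
    PowerSeries.coeff_one, PowerSeries.coeff_C_mul, Int.coe_castRingHom, Int.cast_id]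
  split_ifs with h0
  · simp
  · simp
    ring

theorem three_dvd_bridgeProduct_coeff_sub (a : ℕ → ℤ) (n : ℕ) :
    (3 : ℤ) ∣ (bridgeProduct a).coeff n - a n := by
  obtain ⟨g, hg⟩ := three_dvd_e1Chi3_sub_one
  have h : bridgeProduct a = PowerSeries.mk a + PowerSeries.C (3 : ℤ) * (PowerSeries.mk a * g) := by
    rw [bridgeProduct, hg]
    ring
  rw [h, map_add, PowerSeries.coeff_mk, PowerSeries.coeff_C_mul]
  exact ⟨(PowerSeries.coeff n) (PowerSeries.mk a * g), by ring⟩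

theorem exists_of_isLatticeRealized {N : ℕ} {a : ℕ → ℤ} (h : CuspForm.IsLatticeRealized N a) :
    ∃ f0 : CuspForm (Gamma0 N) 2, f0 ∈ CuspForm.qIntegralSet N ∧ ∃ af : ℕ → ℤ,
      (∀ n, (af n : ℂ) = ModularFormClass.qCoeff f0 n) ∧ ∀ n, (3 : ℤ) ∣ af n - a n := by
  obtain ⟨f0, hf0, af, haf, h3⟩ := h
  refine ⟨f0, hf0, af, haf, fun n => ?_⟩
  have := dvd_add (h3 n) (three_dvd_bridgeProduct_coeff_sub a n)
  simpa using this

end Fermat.Agent.S49.Bridge
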